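import Mathlib

/-!
# S18 / FF.1 (DISC), helper5 — characteristic-free discreteness of extended valuation rings

`isPrincipalIdealRing_of_comap`: if `F/E` is a finite field extension and `V` is a valuation
subring of `F` whose restriction `V ∩ E` is a principal ideal ring, then `V` is a principal ideal
ring.  No separability assumption.
-/

set_option autoImplicit false

namespace Fermat.Agent.S18.H5

open Valuation

section Key

variable {E F : Type*} [Field E] [Field F] [Algebra E F] [FiniteDimensional E F]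
variable {Γ : Type*} [LinearOrderedCommGroupWithZero Γ] (v : Valuation F Γ)

/-- Some power `a ^ d`, `1 ≤ d ≤ [F:E]`, has the valuation of an element of `E`. -/
theorem exists_pow_val_eq (a : F) (ha : a ≠ 0) :
    ∃ d : ℕ, 0 < d ∧ d ≤ Module.finrank E F ∧
      ∃ c : E, c ≠ 0 ∧ v a ^ d = v (algebraMap E F c) := by
  classical
  set n := Module.finrank E F with hn
  have hdep : ¬ LinearIndependent E (fun i : Fin (n + 1) => a ^ (i : ℕ)) := by
    intro h
    have := h.fintype_card_le_finrank
    simp only [Fintype.card_fin] at this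
    omega
  rw [Fintype.not_linearIndependent_iff] at hdep
  obtain ⟨g, hsum, i₀, hi₀⟩ := hdep
  set t : Fin (n + 1) → F := fun i => g i • a ^ (i : ℕ) with ht
  have hva : v a ≠ 0 := (Valuation.ne_zero_iff v).mpr ha
  have htv : ∀ i, v (t i) = v (algebraMap E F (g i)) * v a ^ (i : ℕ) := by
    intro i
    simp only [ht, Algebra.smul_def, map_mul, map_pow]
  have htne : ∀ i, g i ≠ 0 → v (t i) ≠ 0 := by
    intro i hi
    rw [htv]
    refine mul_ne_zero ?_ (pow_ne_zero _ hva)
    rw [Valuation.ne_zero_iff]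
    simpa using hi
  have htz : ∀ i, g i = 0 → t i = 0 := by
    intro i hi
    simp [ht, hi]
  -- index of maximal valuation among the nonzero terms
  set S : Finset (Fin (n + 1)) := Finset.univ.filter fun i => g i ≠ 0 with hS
  have hSne : S.Nonempty := ⟨i₀, by simp [hS, hi₀]⟩
  obtain ⟨i₁, hi₁S, hmax⟩ := Finset.exists_max_image S (fun i => v (t i)) hSne
  have hg₁ : g i₁ ≠ 0 := by simpa [hS] using hi₁S
  -- there is another index with the same valuation
  have hex : ∃ i, i ≠ i₁ ∧ g i ≠ 0 ∧ v (t i) = v (t i₁) := by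
    by_contra hcon
    push Not at hcon
    have hlt : ∀ i ∈ Finset.univ.erase i₁, v (t i) < v (t i₁) := by
      intro i hi
      have hne : i ≠ i₁ := Finset.ne_of_mem_erase hi
      by_cases hgi : g i = 0
      · rw [htz i hgi, map_zero]
        exact zero_lt_iff.mpr (htne i₁ hg₁)
      · have hle : v (t i) ≤ v (t i₁) := hmax i (by simp [hS, hgi])
        exact lt_of_le_of_ne hle (hcon i hne hgi)
    have h1 : v (∑ i ∈ Finset.univ.erase i₁, t i) < v (t i₁) :=
      Valuation.map_sum_lt v (htne i₁ hg₁) hlt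
    have h2 : (∑ i, t i) = t i₁ + ∑ i ∈ Finset.univ.erase i₁, t i := by
      rw [Finset.add_sum_erase _ _ (Finset.mem_univ i₁)]
    have h3 : v (∑ i, t i) = v (t i₁) := by
      rw [h2]
      exact Valuation.map_add_eq_of_lt_left v h1
    have h4 : (∑ i, t i) = 0 := hsum
    rw [h4, map_zero] at h3
    exact htne i₁ hg₁ h3.symm
  obtain ⟨i, hne, hgi, hvi⟩ := hex
  rw [htv, htv] at hvi
  have hvgi : v (algebraMap E F (g i)) ≠ 0 := by
    rw [Valuation.ne_zero_iff]; simpa using hgi
  have hvg₁ : v (algebraMap E F (g i₁)) ≠ 0 := by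
    rw [Valuation.ne_zero_iff]; simpa using hg₁
  -- general step: from `v x * v a ^ p = v y * v a ^ q` with `p < q`
  have step : ∀ (p q : ℕ) (x y : E), x ≠ 0 → y ≠ 0 → p < q → q ≤ n →
      v (algebraMap E F x) * v a ^ p = v (algebraMap E F y) * v a ^ q →
      ∃ d : ℕ, 0 < d ∧ d ≤ n ∧ ∃ c : E, c ≠ 0 ∧ v a ^ d = v (algebraMap E F c) := by
    intro p q x y hx hy hpq hq h
    refine ⟨q - p, by omega, by omega, x / y, div_ne_zero hx hy, ?_⟩
    have hvy : v (algebraMap E F y) ≠ 0 := by
      rw [Valuation.ne_zero_iff]; simpa using hy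
    have hq' : q = (q - p) + p := by omega
    rw [hq', pow_add, ← mul_assoc] at h
    have h' := mul_right_cancel₀ (pow_ne_zero p hva) h
    rw [map_div₀, map_div₀, h', mul_div_cancel_left₀ _ hvy]
  have hi_le : (i : ℕ) ≤ n := by have := i.2; omega
  have hi₁_le : (i₁ : ℕ) ≤ n := by have := i₁.2; omega
  rcases lt_or_gt_of_ne (fun h => hne (Fin.ext h) : (i : ℕ) ≠ i₁) with h | h
  · exact step i i₁ (g i) (g i₁) hgi hg₁ h hi₁_le hvi
  · exact step i₁ i (g i₁) (g i) hg₁ hgi h hi_le hvi.symm

end Key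

section Main

variable {E F : Type*} [Field E] [Field F] [Algebra E F] [FiniteDimensional E F]

/-- If the valuation of `V` is trivial on `E`, then `V = F` is a principal ideal ring. -/
theorem isPrincipalIdealRing_of_trivial (V : ValuationSubring F)
    (htriv : ∀ c : E, c ≠ 0 → V.valuation (algebraMap E F c) = 1) :
    IsPrincipalIdealRing V := by
  classical
  have hunit : ∀ a : F, a ≠ 0 → V.valuation a = 1 := by
    intro a ha
    obtain ⟨d, hd, -, c, hc, hcd⟩ := exists_pow_val_eq (E := E) V.valuation a ha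
    rw [htriv c hc] at hcd
    exact (pow_eq_one_iff.mp hcd).resolve_right hd.ne'
  refine ⟨fun I => ?_⟩
  by_cases hI : I = ⊥
  · rw [hI]; exact ⟨⟨0, by simp⟩⟩
  · obtain ⟨x, hxI, hx0⟩ := Submodule.exists_mem_ne_zero_of_ne_bot hI
    have hxu : IsUnit x := by
      rw [ValuationSubring.valuation_eq_one_iff]
      exact hunit x (by simpa using hx0)
    have : I = ⊤ := Ideal.eq_top_of_isUnit_mem I hxI hxu
    rw [this]
    exact ⟨⟨1, by simp⟩⟩

/-- Core: if a fixed power of every valuation is an integral power of `ϖ < 1`, then `V` is a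
principal ideal ring. -/
theorem isPrincipalIdealRing_of_pow_eq_zpow {F : Type*} [Field F] (V : ValuationSubring F)
    (ϖ : V.ValueGroup) (hϖ0 : ϖ ≠ 0) (hϖ1 : ϖ < 1) (e : ℕ) (he : e ≠ 0)
    (hF : ∀ a : F, a ≠ 0 → ∃ k : ℤ, V.valuation a ^ e = ϖ ^ k) : IsPrincipalIdealRing V := by
  classical
  set v := V.valuation with hv
  -- elements of `V`
  have hVk : ∀ a : V, a ≠ 0 → ∃ k : ℕ, v (a : F) ^ e = ϖ ^ k := by
    intro a ha
    obtain ⟨k, hk⟩ := hF a (by simpa using ha)
    have hle : v (a : F) ^ e ≤ 1 := pow_le_one' (V.valuation_le_one a) _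
    rcases le_or_gt 0 k with hk0 | hk0
    · lift k to ℕ using hk0
      exact ⟨k, by simpa using hk⟩
    · exfalso
      rw [hk] at hle
      have : (1 : V.ValueGroup) < ϖ ^ k := by
        have h1 : ϖ ^ k = (ϖ⁻¹) ^ (-k) := by rw [inv_zpow, zpow_neg, inv_inv]
        rw [h1]
        have hpos : 0 < -k := by omega
        lift (-k) to ℕ using hpos.le with m hm
        rw [zpow_natCast]
        have hm0 : m ≠ 0 := by
          rintro rfl
          simp at hpos
        exact one_lt_pow₀ (one_lt_inv_iff₀.mpr ⟨zero_lt_iff.mpr hϖ0, hϖ1⟩) hm0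
      exact absurd hle (not_le.mpr this)
  have hinj : ∀ k k' : ℕ, ϖ ^ k = ϖ ^ k' → k = k' := by
    intro k k' h
    exact (pow_right_strictAnti₀ (zero_lt_iff.mpr hϖ0) hϖ1).injective h
  -- the measure
  let N : V → ℕ∞ := fun a => if h : a = 0 then ⊤ else ((hVk a h).choose : ℕ)
  have hN0 : N 0 = ⊤ := by simp [N]
  have hNspec : ∀ a : V, ∀ h : a ≠ 0, ∃ k : ℕ, N a = k ∧ v (a : F) ^ e = ϖ ^ k := by
    intro a h
    exact ⟨(hVk a h).choose, by simp [N, h], (hVk a h).choose_spec⟩
  have hsub : ∀ a b : V, DvdNotUnit a b → N a < N b := by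
    rintro a b ⟨ha, x, hx, rfl⟩
    obtain ⟨ka, hka, hka'⟩ := hNspec a ha
    by_cases hx0 : x = 0
    · rw [hx0, mul_zero, hN0, hka]
      exact WithTop.coe_lt_top _
    · obtain ⟨kx, hkx, hkx'⟩ := hNspec x hx0
      obtain ⟨kb, hkb, hkb'⟩ := hNspec (a * x) (mul_ne_zero ha hx0)
      have hkab : kb = ka + kx := by
        apply hinj
        rw [← hkb', pow_add, ← hka', ← hkx']
        push_cast
        rw [map_mul, mul_pow]
      have hkx1 : kx ≠ 0 := by
        rintro rfl
        rw [pow_zero] at hkx'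
        have hv1 : v (x : F) = 1 := (pow_eq_one_iff.mp hkx').resolve_right he
        exact hx ((ValuationSubring.valuation_eq_one_iff V x).mpr hv1)
      rw [hka, hkb, hkab]
      exact_mod_cast Nat.lt_add_of_pos_right (Nat.pos_of_ne_zero hkx1)
  have hwf : WfDvdMonoid V :=
    ⟨Subrelation.wf (fun {a b} h => hsub a b h) (InvImage.wf N wellFounded_lt)⟩
  exact ((IsBezout.TFAE (R := V)).out 1 3).mpr hwf

/-- **FF.1 (DISC)**: a valuation subring of a finite extension whose restriction to the base
field is a principal ideal ring is itself a principal ideal ring. -/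
theorem isPrincipalIdealRing_of_comap (V : ValuationSubring F)
    (hV : IsPrincipalIdealRing (V.comap (algebraMap E F))) : IsPrincipalIdealRing V := by
  classical
  by_cases htriv : ∀ c : E, c ≠ 0 → V.valuation (algebraMap E F c) = 1
  · exact isPrincipalIdealRing_of_trivial V htriv
  push Not at htriv
  obtain ⟨c₀, hc₀, hc₀v⟩ := htriv
  set O : ValuationSubring E := V.comap (algebraMap E F) with hO
  set v := V.valuation with hv
  set n := Module.finrank E F with hn
  -- valuation of `V` on `E` versus membership in `O`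
  have hmemO : ∀ c : E, c ∈ O ↔ v (algebraMap E F c) ≤ 1 := by
    intro c
    rw [hO, ValuationSubring.mem_comap, hv, ValuationSubring.valuation_le_one_iff]
  -- units of `O` have valuation one
  have hunitO : ∀ u : Oˣ, v (algebraMap E F ((u : O) : E)) = 1 := by
    intro u
    have h1 : v (algebraMap E F ((u : O) : E)) ≤ 1 := (hmemO _).mp (u : O).2
    have h2 : v (algebraMap E F (((u⁻¹ : Oˣ) : O) : E)) ≤ 1 := (hmemO _).mp ((u⁻¹ : Oˣ) : O).2
    have h3 : ((u : O) : E) * (((u⁻¹ : Oˣ) : O) : E) = 1 := by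
      have h := congrArg (fun z : O => (z : E)) u.mul_inv
      simpa only [MulMemClass.coe_mul, OneMemClass.coe_one] using h
    have h4 : v (algebraMap E F ((u : O) : E)) * v (algebraMap E F (((u⁻¹ : Oˣ) : O) : E)) = 1 := by
      rw [← map_mul, ← map_mul, h3, map_one, map_one]
    refine le_antisymm h1 ?_
    calc (1 : V.ValueGroup) = v (algebraMap E F ((u : O) : E)) *
          v (algebraMap E F (((u⁻¹ : Oˣ) : O) : E)) := h4.symm
      _ ≤ v (algebraMap E F ((u : O) : E)) * 1 := by gcongr
      _ = v (algebraMap E F ((u : O) : E)) := mul_one _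
  -- `O` is a discrete valuation ring
  have hnotfield : IsLocalRing.maximalIdeal O ≠ ⊥ := by
    -- `c₀` or its inverse is a nonzero nonunit of `O`
    rcases lt_or_gt_of_ne hc₀v with h | h
    · have hmem : c₀ ∈ O := (hmemO c₀).mpr h.le
      intro hbot
      have : (⟨c₀, hmem⟩ : O) ∈ IsLocalRing.maximalIdeal O := by
        rw [IsLocalRing.mem_maximalIdeal, mem_nonunits_iff]
        intro hu
        have := hunitO hu.unit
        simp only [IsUnit.unit_spec] at this
        exact hc₀v this
      rw [hbot, Ideal.mem_bot] at this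
      exact hc₀ (congrArg Subtype.val this)
    · have hinv : v (algebraMap E F c₀⁻¹) < 1 := by
        rw [map_inv₀, map_inv₀]
        exact inv_lt_one_of_one_lt₀ h
      have hmem : c₀⁻¹ ∈ O := (hmemO _).mpr hinv.le
      intro hbot
      have : (⟨c₀⁻¹, hmem⟩ : O) ∈ IsLocalRing.maximalIdeal O := by
        rw [IsLocalRing.mem_maximalIdeal, mem_nonunits_iff]
        intro hu
        have := hunitO hu.unit
        simp only [IsUnit.unit_spec] at this
        exact hinv.ne this
      rw [hbot, Ideal.mem_bot] at this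
      exact inv_ne_zero hc₀ (congrArg Subtype.val this)
  have : IsDiscreteValuationRing O := { not_a_field' := hnotfield }
  obtain ⟨π, hπ⟩ := IsDiscreteValuationRing.exists_irreducible O
  set ϖ : V.ValueGroup := v (algebraMap E F (π : E)) with hϖ
  have hπ0 : (π : E) ≠ 0 := by
    simpa [ne_eq, ZeroMemClass.coe_eq_zero] using hπ.ne_zero
  have hϖ0 : ϖ ≠ 0 := by
    rw [hϖ, Valuation.ne_zero_iff]; simpa using hπ0
  have hϖ1 : ϖ < 1 := by
    have hle : ϖ ≤ 1 := (hmemO _).mp π.2
    refine lt_of_le_of_ne hle fun h1 => ?_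
    -- then `π⁻¹ ∈ O`, so `π` is a unit
    have hinv : (π : E)⁻¹ ∈ O := by
      rw [hmemO, map_inv₀, map_inv₀, ← hϖ, h1, inv_one]
    exact hπ.not_isUnit (isUnit_iff_exists_inv.mpr ⟨⟨_, hinv⟩, Subtype.ext (mul_inv_cancel₀ hπ0)⟩)
  -- every nonzero element of `E` has valuation a power of `ϖ`
  have hE : ∀ c : E, c ≠ 0 → ∃ k : ℤ, v (algebraMap E F c) = ϖ ^ k := by
    intro c hc
    obtain ⟨k, u, hu⟩ :=
      IsDiscreteValuationRing.exists_units_eq_smul_zpow_of_irreducible (K := E) hπ hc
    refine ⟨k, ?_⟩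
    rw [Units.smul_def, Algebra.smul_def] at hu
    have hcoe : algebraMap O E (u : O) = ((u : O) : E) := rfl
    have hcoe' : algebraMap O E π = (π : E) := rfl
    rw [hcoe, hcoe'] at hu
    rw [hu, map_mul, map_mul, hunitO u, one_mul, map_zpow₀, map_zpow₀]
  -- every nonzero element of `F`
  have hF : ∀ a : F, a ≠ 0 → ∃ k : ℤ, v a ^ n.factorial = ϖ ^ k := by
    intro a ha
    obtain ⟨d, hd, hdn, c, hc, hcd⟩ := exists_pow_val_eq (E := E) v a ha
    obtain ⟨k, hk⟩ := hE c hc
    obtain ⟨e, he⟩ := Nat.dvd_factorial hd hdn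
    refine ⟨k * e, ?_⟩
    rw [he, pow_mul, hcd, hk, zpow_mul, zpow_natCast]
  exact isPrincipalIdealRing_of_pow_eq_zpow V ϖ hϖ0 hϖ1 n.factorial (Nat.factorial_ne_zero n) hF

end Main

end Fermat.Agent.S18.H5
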