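import Mathlib
import Fermat.Prelude.Def_AlgebraicCurve_DivisorClassGroup
import Fermat.Agent.S24.FFBasic
import Fermat.Agent.S18.H5.Disc

/-!
# S18 / FF.2 (EXT), helper5 — a transcendental function has a zero at some place

`exists_place_ord_pos`: if `u ∈ F` is transcendental over `K` and `F` is finite over `K(u)`,
there is a place `v` of `F/K` (a discrete valuation ring of `F` containing `K`) with
`0 < v.ord u`.  Characteristic-free: no separability, no Dedekind domains.
-/

set_option autoImplicit false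

namespace Fermat.Agent.S18.H5

open Polynomial IntermediateField AlgebraicCurve

section Poly

variable {K F : Type*} [Field K] [Field F] [Algebra K F]

/-- Valuation of a polynomial in `u` with nonzero constant term, when `v u < 1` and `v` is
trivial on the constants. -/
theorem val_aeval_eq_one (V : ValuationSubring F) (hK : ∀ c : K, algebraMap K F c ∈ V)
    (u : F) (hu : V.valuation u < 1) (r : K[X]) (hr : r.coeff 0 ≠ 0) :
    V.valuation (aeval u r) = 1 := by
  have hmem : ∀ p : K[X], aeval u p ∈ V := by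
    intro p
    have huV : u ∈ V := (V.valuation_le_one_iff u).mp hu.le
    rw [aeval_eq_sum_range]
    refine sum_mem fun i _ => ?_
    rw [Algebra.smul_def]
    exact mul_mem (hK _) (pow_mem huV i)
  have hc : V.valuation (algebraMap K F (r.coeff 0)) = 1 := by
    have h1 : V.valuation (algebraMap K F (r.coeff 0)) ≤ 1 :=
      (V.valuation_le_one_iff _).mpr (hK _)
    have h2 : V.valuation (algebraMap K F (r.coeff 0)⁻¹) ≤ 1 :=
      (V.valuation_le_one_iff _).mpr (hK _)
    rw [map_inv₀, map_inv₀] at h2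
    have h0 : V.valuation (algebraMap K F (r.coeff 0)) ≠ 0 := by
      rw [Valuation.ne_zero_iff]; simpa using hr
    exact le_antisymm h1 ((inv_le_one₀ (zero_lt_iff.mpr h0)).mp h2)
  have hsplit : aeval u r = aeval u r.divX * u + algebraMap K F (r.coeff 0) := by
    conv_lhs => rw [← Polynomial.divX_mul_X_add r]
    simp
  rw [hsplit]
  have hlt : V.valuation (aeval u r.divX * u) < V.valuation (algebraMap K F (r.coeff 0)) := by
    rw [hc, map_mul]
    calc V.valuation (aeval u r.divX) * V.valuation u
        ≤ 1 * V.valuation u := by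
          gcongr
          exact (V.valuation_le_one_iff _).mpr (hmem _)
      _ = V.valuation u := one_mul _
      _ < 1 := hu
  rw [Valuation.map_add_eq_of_lt_right _ hlt, hc]

/-- Valuation of a nonzero polynomial in `u`. -/
theorem val_aeval_eq_pow (V : ValuationSubring F) (hK : ∀ c : K, algebraMap K F c ∈ V)
    (u : F) (hu : V.valuation u < 1) (r : K[X]) (hr : r ≠ 0) :
    ∃ k : ℕ, V.valuation (aeval u r) = V.valuation u ^ k := by
  obtain ⟨q, hq, hnd⟩ := Polynomial.exists_eq_pow_rootMultiplicity_mul_and_not_dvd r hr 0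
  refine ⟨r.rootMultiplicity 0, ?_⟩
  have hq0 : q.coeff 0 ≠ 0 := by
    intro h
    apply hnd
    rw [map_zero, sub_zero]
    exact Polynomial.X_dvd_iff.mpr h
  conv_lhs => rw [hq]
  rw [map_zero, sub_zero, map_mul, map_pow, aeval_X, map_mul, map_pow,
    val_aeval_eq_one V hK u hu q hq0, mul_one]

/-- Valuation of a nonzero element of `K(u)`. -/
theorem val_adjoin_eq_zpow (V : ValuationSubring F) (hK : ∀ c : K, algebraMap K F c ∈ V)
    (u : F) (hu : V.valuation u < 1) (hu0 : u ≠ 0) (c : K⟮u⟯) (hc : c ≠ 0) :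
    ∃ k : ℤ, V.valuation (algebraMap K⟮u⟯ F c) = V.valuation u ^ k := by
  obtain ⟨r, s, hrs⟩ := (mem_adjoin_simple_iff K (c : F)).mp c.2
  have hcF : (c : F) ≠ 0 := by simpa using hc
  have hr : r ≠ 0 := by
    rintro rfl
    rw [map_zero, zero_div] at hrs
    exact hcF hrs
  have hs : s ≠ 0 := by
    rintro rfl
    rw [map_zero, div_zero] at hrs
    exact hcF hrs
  obtain ⟨kr, hkr⟩ := val_aeval_eq_pow V hK u hu r hr
  obtain ⟨ks, hks⟩ := val_aeval_eq_pow V hK u hu s hs
  have hv0 : V.valuation u ≠ 0 := (Valuation.ne_zero_iff _).mpr hu0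
  refine ⟨(kr : ℤ) - ks, ?_⟩
  have : algebraMap K⟮u⟯ F c = aeval u r / aeval u s := hrs
  rw [this, map_div₀, hkr, hks, zpow_sub₀ hv0, zpow_natCast, zpow_natCast]

end Poly

section Exists

variable {K F : Type*} [Field K] [Field F] [Algebra K F]

/-- Chevalley: a valuation subring containing `K` in which the transcendental `u` is a
nonunit. -/
theorem exists_valuationSubring_lt_one (u : F) (hu : Transcendental K u) :
    ∃ V : ValuationSubring F, (∀ c : K, algebraMap K F c ∈ V) ∧ V.valuation u < 1 := by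
  classical
  set S : Subring F := (Algebra.adjoin K {u}).toSubring with hS
  have huS : u ∈ S := Algebra.subset_adjoin (Set.mem_singleton u)
  have hKS : ∀ c : K, algebraMap K F c ∈ S := fun c => (Algebra.adjoin K {u}).algebraMap_mem c
  -- `u` is not a unit of `S`
  have hnu : ¬ IsUnit (⟨u, huS⟩ : S) := by
    intro h
    obtain ⟨w, hw⟩ := isUnit_iff_exists_inv.mp h
    have hwmem : (w : F) ∈ Algebra.adjoin K {u} := w.2
    rw [Algebra.adjoin_singleton_eq_range_aeval] at hwmem
    obtain ⟨p, hp⟩ := hwmem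
    have h1 : u * (w : F) = 1 := by
      have := congrArg (fun z : S => (z : F)) hw
      simpa using this
    have h2 : aeval u (X * p - 1 : K[X]) = 0 := by
      have hp' : aeval u p = (w : F) := hp
      rw [map_sub, map_mul, aeval_X, map_one, hp', h1, sub_self]
    have h3 : (X * p - 1 : K[X]) = 0 := by
      by_contra hne
      exact hu ⟨_, hne, h2⟩
    have h4 := congrArg (fun q : K[X] => q.coeff 0) h3
    simp at h4
  obtain ⟨M, hM, hle⟩ := Ideal.exists_le_maximal (Ideal.span {(⟨u, huS⟩ : S)})
    (by rwa [Ne, Ideal.span_singleton_eq_top])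
  have : M.IsPrime := hM.isPrime
  obtain ⟨V, hV⟩ := LocalSubring.exists_le_valuationSubring (LocalSubring.ofPrime S M)
  obtain ⟨hsub, hloc⟩ := hV
  have hSV : ∀ x ∈ S, x ∈ V := fun x hx => hsub (LocalSubring.le_ofPrime S M hx)
  refine ⟨V, fun c => hSV _ (hKS c), ?_⟩
  -- `u` is a nonunit of the localisation, hence of `V`
  have huA : u ∈ (LocalSubring.ofPrime S M).toSubring := LocalSubring.le_ofPrime S M huS
  have hnuA : ¬ IsUnit (⟨u, huA⟩ : (LocalSubring.ofPrime S M).toSubring) := by
    have hmem : (⟨u, huS⟩ : S) ∈ M := hle (Ideal.subset_span (Set.mem_singleton _))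
    have := (IsLocalization.AtPrime.to_map_mem_maximal_iff
      (LocalSubring.ofPrime S M).toSubring M (⟨u, huS⟩ : S)).mpr hmem
    rw [IsLocalRing.mem_maximalIdeal, mem_nonunits_iff] at this
    exact this
  have hnuV : ¬ IsUnit (⟨u, hSV u huS⟩ : V) := by
    intro h
    apply hnuA
    exact hloc.map_nonunit (⟨u, huA⟩ : (LocalSubring.ofPrime S M).toSubring) h
  have hle1 : V.valuation u ≤ 1 := (V.valuation_le_one_iff u).mpr (hSV u huS)
  refine lt_of_le_of_ne hle1 fun h1 => hnuV ?_
  exact (V.valuation_eq_one_iff ⟨u, hSV u huS⟩).mpr h1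

/-- **FF.2 (EXT)**: a transcendental `u` such that `F` is finite over `K(u)` has a zero at some
place of `F/K`. -/
theorem exists_place_ord_pos (u : F) (hu : Transcendental K u)
    [FiniteDimensional K⟮u⟯ F] : ∃ v : Place K F, 0 < v.ord u := by
  classical
  obtain ⟨V, hKV, huV⟩ := exists_valuationSubring_lt_one (K := K) u hu
  have hu0 : u ≠ 0 := by
    rintro rfl
    exact hu (isAlgebraic_zero)
  have hϖ0 : V.valuation u ≠ 0 := (Valuation.ne_zero_iff _).mpr hu0
  set n := Module.finrank K⟮u⟯ F with hn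
  have hF : ∀ a : F, a ≠ 0 → ∃ k : ℤ, V.valuation a ^ n.factorial = V.valuation u ^ k := by
    intro a ha
    obtain ⟨d, hd, hdn, c, hc, hcd⟩ := exists_pow_val_eq (E := K⟮u⟯) V.valuation a ha
    obtain ⟨k, hk⟩ := val_adjoin_eq_zpow V hKV u huV hu0 c hc
    obtain ⟨e, he⟩ := Nat.dvd_factorial hd hdn
    refine ⟨k * e, ?_⟩
    rw [he, pow_mul, hcd, hk, zpow_mul, zpow_natCast]
  have hpid : IsPrincipalIdealRing V :=
    isPrincipalIdealRing_of_pow_eq_zpow V _ hϖ0 huV n.factorial (Nat.factorial_ne_zero n) hF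
  have hnonunit : u ∈ V.nonunits := (V.mem_nonunits_iff).mpr huV
  have hne_top : V ≠ ⊤ := by
    rintro rfl
    have : (⊤ : ValuationSubring F).valuation u = 1 := by
      have h1 : (⊤ : ValuationSubring F).valuation u ≤ 1 :=
        ((⊤ : ValuationSubring F).valuation_le_one_iff u).mpr (ValuationSubring.mem_top u)
      have h2 : (⊤ : ValuationSubring F).valuation u⁻¹ ≤ 1 :=
        ((⊤ : ValuationSubring F).valuation_le_one_iff _).mpr (ValuationSubring.mem_top _)
      rw [map_inv₀] at h2
      exact le_antisymm h1 ((inv_le_one₀ (zero_lt_iff.mpr hϖ0)).mp h2)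
    exact huV.ne this
  let v : Place K F :=
    { toValuationSubring := V
      algebraMap_mem' := hKV
      ne_top' := hne_top
      isPrincipalIdealRing' := hpid }
  exact ⟨v, (Fermat.Agent.S24.FF.ord_pos_iff_mem_nonunits v hu0).mpr hnonunit⟩

end Exists

end Fermat.Agent.S18.H5
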