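import Mathlib
import Fermat.Agent.S24.FFFinite
import Fermat.Agent.S18.Sq05.Spec
import Fermat.Agent.S18.H5.Ext

/-!
# S18 / FF.3 (CONST, generic), helper5 — and the frozen statements FF.1, FF.2, FF.3 of
`Fermat/Agent/S18/Sq05/Spec.lean`

Characteristic-free: over an algebraically closed constant field `K`, in a finite extension `F`
of `K(x)`, a function without zeros (at the discrete valuation rings of `F/K`) is constant.
-/

set_option autoImplicit false

namespace Fermat.Agent.S18.H5

open IntermediateField AlgebraicCurve

/-- **FF.3 (CONST, generic)**, universe polymorphic.  Only zeros are needed: if `u ≠ 0` has no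
zero at any place, it is a constant. -/
theorem exists_const_of_forall_ord_le {K F : Type*} [Field K] [Field F] [Algebra K F]
    [IsAlgClosed K] (x : F) (hx : Transcendental K x) [FiniteDimensional K⟮x⟯ F]
    (u : F) (hord : ∀ v : Place K F, v.ord u ≤ 0) : ∃ c : K, u = algebraMap K F c := by
  by_contra hcon
  have hnot : u ∉ (algebraMap K F).range := fun ⟨c, hc⟩ => hcon ⟨c, hc.symm⟩
  have htr : Transcendental K u := Fermat.Agent.S24.FF.transcendental_of_not_mem_range hnot
  have : FiniteDimensional K⟮u⟯ F :=
    Fermat.Agent.S24.FF.finiteDimensional_adjoin_of_transcendental hx htr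
  obtain ⟨v, hv⟩ := exists_place_ord_pos u htr
  exact absurd (hord v) (not_le.mpr hv)

theorem constStatement_of_finite {K F : Type*} [Field K] [Field F] [Algebra K F]
    [IsAlgClosed K] (x : F) (hx : Transcendental K x) [FiniteDimensional K⟮x⟯ F] :
    Sq05.ConstStatement K F :=
  fun u _ hord => exists_const_of_forall_ord_le x hx u fun v => (hord v).le

/-- FF.1 in the frozen shape. -/
theorem discStatement : Sq05.DiscStatement := by
  intro E F _ _ _ _ V hV
  exact isPrincipalIdealRing_of_comap V hV

/-- FF.2 in the frozen shape. -/
theorem extStatement : Sq05.ExtStatement := by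
  intro K F _ _ _ u hu hfin
  exact exists_place_ord_pos u hu

/-- FF.3 in the frozen shape. -/
theorem constGenericStatement : Sq05.ConstGenericStatement := by
  intro K F _ _ _ _ x hx hfin
  exact constStatement_of_finite x hx

end Fermat.Agent.S18.H5
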