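import Mathlib
import Fermat.Agent.S18.Sq05.Spec
import Fermat.Agent.S18.H5.Const
import Fermat.Agent.S18.H739.ModFiniteStmt
import Fermat.Agent.S18.H9.Res
import Fermat.Agent.S18.H504.ConstF

/-!
# S18 — T2 and T3 (CONST_F, CONST_Fk) in the frozen shapes of `Sq05/Spec.lean`

Assembly by helper5 (squad S18/S05) from landed pieces:
* FF.3 `H5.constGenericStatement` (helper5), MOD.1 `H739.modFiniteStatement` (helper739),
  RES.1/RES.2 `H9.resAlgClosed`, `H9.resChar` (helper9)  ⟹  **T3**;
* `H504.constOfOrdZero_modularFunctionFieldBar` (helper504, from landed S24)  ⟹  **T2**.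
-/

set_option autoImplicit false

namespace Fermat.Agent.S18.H5

open AlgebraicCurve ModularCurve

/-- **T3, generic field**: `CONST` for `k(j(q^d) : d ∣ N)` over any algebraically closed field
`k` in which the primes dividing `N` are invertible. -/
theorem t3Generic : Sq05.T3GenericStatement :=
  Sq05.t3Generic_of_pieces constGenericStatement Fermat.Agent.S18.H739.modFiniteStatement

end Fermat.Agent.S18.H5

namespace Fermat.Agent.S18.H5

open AlgebraicCurve ModularCurve

/-- **T3** (`CONST_Fk` at `k = A/𝔪`, `ℓ ∤ N`), frozen shape. -/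
theorem t3 : Sq05.T3Statement :=
  Sq05.t3_of_pieces t3Generic Fermat.Agent.S18.H9.resAlgClosed Fermat.Agent.S18.H9.resChar

/-- **T2** (`CONST_F` in characteristic zero), frozen shape. -/
theorem t2 : Sq05.T2Statement :=
  fun N _ => Fermat.Agent.S18.H504.constOfOrdZero_modularFunctionFieldBar N

/-- T3 unfolded, as consumed by the top layer (`H94.ConstOfOrdZero` is definitionally this). -/
theorem constOfOrdZero_residue (N : ℕ) [NeZero N] {ℓ : ℕ} (hℓ : ℓ.Prime) (hℓN : ¬ ℓ ∣ N)
    (A : ValuationSubring (AlgebraicClosure ℚ)) (hA : A.LiesOverPrime ℓ) :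
    ∀ u : modularFunctionFieldFullC (IsLocalRing.ResidueField A) N, u ≠ 0 →
      (∀ v : Place (IsLocalRing.ResidueField A)
        (modularFunctionFieldFullC (IsLocalRing.ResidueField A) N), v.ord u = 0) →
      ∃ c : IsLocalRing.ResidueField A,
        u = algebraMap (IsLocalRing.ResidueField A)
          (modularFunctionFieldFullC (IsLocalRing.ResidueField A) N) c :=
  t3 N ℓ hℓ hℓN A hA

end Fermat.Agent.S18.H5
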