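import Fermat.Agent.S18.H665.StepA
import Fermat.Agent.S18.H5.T23

/-!
# S18 — NODE T3 (`node_constFk` of `Integ/Skeleton.lean`), helper5

The exact type of the open node `node_constFk` of the row-lead's integration skeleton
(`origin/helper18:Fermat/Agent/S18/Integ/Skeleton.lean`): `H665.ConstLemma N A`.
-/

set_option autoImplicit false

namespace Fermat.Agent.S18.H5

/-- NODE T3 (CONST_Fk): a function on the special fibre without zeros and poles is constant. -/
theorem node_constFk (N : ℕ) [NeZero N] {ℓ : ℕ} [Fact ℓ.Prime] (hℓN : ¬ ℓ ∣ N)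
    (A : ValuationSubring (AlgebraicClosure ℚ)) (hA : A.LiesOverPrime ℓ) :
    Fermat.Agent.S18.H665.ConstLemma N A :=
  constOfOrdZero_residue N (Fact.out : ℓ.Prime) hℓN A hA

end Fermat.Agent.S18.H5
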